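/-
MLT / [L2] (helper9), package (JL-K), part 2: **the matrix algebra of the final step** (no geometry).

`σ` a finite set (the supersingular points), `A : S → Matrix σ σ ℤ` (the Brandt matrices),
`ρ = FreeAlgebra.lift ℤ A`, `θ = FreeAlgebra.lift ℤ a` (the eigensystem).

* `mltj_mat_eigen`   : an eigenvector modulo constants `f : σ → M` of the `A s` (row sums constant) is an
                       eigenvector modulo constants of every `ρ h`, with eigenvalue `θ h`;
* `mltj_mat_const`   : if moreover all rows of `ρ h` are equal, `p ∤ θ h` and `p • (f P - f P') = 0`, then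
                       `f` is constant;
* `mltj_mat_equivariant` : an additive map `sl : D → (σ → ℚ)` which intertwines `T s` and `A s` intertwines
                       `lift T h` and `ρ h`.
-/
import Mathlib

set_option autoImplicit false
set_option linter.unusedSectionVars false
set_option linter.unusedVariables false

namespace Fermat.Agent.MLT

open Matrix

section Eigen

variable {σ : Type*} [Fintype σ] [DecidableEq σ] {S : Type*} (A : S → Matrix σ σ ℤ)
  {M : Type*} [AddCommGroup M]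

/-- the action of an integral matrix on `M`-valued vectors -/
def mltjMulVec (B : Matrix σ σ ℤ) (f : σ → M) : σ → M := fun P => ∑ Q, B P Q • f Q

theorem mltjMulVec_apply (B : Matrix σ σ ℤ) (f : σ → M) (P : σ) :
    mltjMulVec B f P = ∑ Q, B P Q • f Q := rfl

theorem mltjMulVec_mul (B C : Matrix σ σ ℤ) (f : σ → M) :
    mltjMulVec (B * C) f = mltjMulVec B (mltjMulVec C f) := by
  funext P
  simp only [mltjMulVec_apply, Matrix.mul_apply, Finset.sum_smul, Finset.smul_sum, mul_smul]
  rw [Finset.sum_comm]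

theorem mltjMulVec_add (B C : Matrix σ σ ℤ) (f : σ → M) :
    mltjMulVec (B + C) f = mltjMulVec B f + mltjMulVec C f := by
  funext P
  simp only [mltjMulVec_apply, Matrix.add_apply, add_smul, Finset.sum_add_distrib, Pi.add_apply]

theorem mltjMulVec_algebraMap (c : ℤ) (f : σ → M) :
    mltjMulVec (algebraMap ℤ (Matrix σ σ ℤ) c) f = c • f := by
  funext P
  simp only [mltjMulVec_apply, Pi.smul_apply]
  rw [Finset.sum_eq_single P]
  · rw [Matrix.algebraMap_matrix_apply, if_pos rfl]
    rfl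
  · intro Q _ hQ
    rw [Matrix.algebraMap_matrix_apply, if_neg (Ne.symm hQ), zero_smul]
  · intro h
    exact absurd (Finset.mem_univ P) h

/-- the row sums of a matrix are all equal to `r` -/
def MltjRowSum (B : Matrix σ σ ℤ) (r : ℤ) : Prop := ∀ P, ∑ Q, B P Q = r

theorem mltjMulVec_const {B : Matrix σ σ ℤ} {r : ℤ} (hB : MltjRowSum B r) (c : M) :
    mltjMulVec B (fun _ => c) = fun _ => r • c := by
  funext P
  rw [mltjMulVec_apply, ← Finset.sum_smul, hB P]

/-- `f` is an eigenvector of `B` modulo constants, with eigenvalue `a` -/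
def MltjEigMod (B : Matrix σ σ ℤ) (f : σ → M) (a : ℤ) : Prop :=
  ∃ c : M, ∀ P, mltjMulVec B f P = c + a • f P

theorem mltj_rowSum_mul {B C : Matrix σ σ ℤ} {r s : ℤ} (hB : MltjRowSum B r) (hC : MltjRowSum C s) :
    MltjRowSum (B * C) (r * s) := by
  intro P
  simp only [Matrix.mul_apply]
  rw [Finset.sum_comm]
  simp only [← Finset.mul_sum, hC _]
  rw [← Finset.sum_mul, hB P]

theorem mltj_rowSum_add {B C : Matrix σ σ ℤ} {r s : ℤ} (hB : MltjRowSum B r) (hC : MltjRowSum C s) :
    MltjRowSum (B + C) (r + s) := by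
  intro P
  simp only [Matrix.add_apply, Finset.sum_add_distrib, hB P, hC P]

theorem mltj_rowSum_algebraMap (c : ℤ) : MltjRowSum (algebraMap ℤ (Matrix σ σ ℤ) c) c := by
  intro P
  rw [Finset.sum_eq_single P]
  · rw [Matrix.algebraMap_matrix_apply, if_pos rfl]
    rfl
  · intro Q _ hQ
    rw [Matrix.algebraMap_matrix_apply, if_neg (Ne.symm hQ)]
  · intro h
    exact absurd (Finset.mem_univ P) h

theorem mltj_eigMod_mul {B C : Matrix σ σ ℤ} {f : σ → M} {a b r : ℤ} (hB : MltjEigMod B f a)
    (hBr : MltjRowSum B r) (hC : MltjEigMod C f b) : MltjEigMod (B * C) f (a * b) := by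
  obtain ⟨c, hc⟩ := hB
  obtain ⟨d, hd⟩ := hC
  refine ⟨r • d + b • c, fun P => ?_⟩
  rw [mltjMulVec_mul]
  have h1 : mltjMulVec C f = (fun _ => d) + b • f := by
    funext Q
    rw [hd Q]
    rfl
  rw [h1]
  have h2 : mltjMulVec B ((fun _ => d) + b • f) P
      = mltjMulVec B (fun _ => d) P + b • mltjMulVec B f P := by
    simp only [mltjMulVec_apply, Pi.add_apply, Pi.smul_apply, smul_add, Finset.sum_add_distrib,
      Finset.smul_sum]
    congr 1
    refine Finset.sum_congr rfl fun Q _ => ?_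
    rw [smul_comm]
  rw [h2, mltjMulVec_const hBr, hc P, smul_add, mul_comm a b, mul_smul]
  abel

theorem mltj_eigMod_add {B C : Matrix σ σ ℤ} {f : σ → M} {a b : ℤ} (hB : MltjEigMod B f a)
    (hC : MltjEigMod C f b) : MltjEigMod (B + C) f (a + b) := by
  obtain ⟨c, hc⟩ := hB
  obtain ⟨d, hd⟩ := hC
  refine ⟨c + d, fun P => ?_⟩
  rw [mltjMulVec_add, Pi.add_apply, hc P, hd P, add_smul]
  abel

theorem mltj_eigMod_algebraMap (c : ℤ) (f : σ → M) :
    MltjEigMod (algebraMap ℤ (Matrix σ σ ℤ) c) f c := by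
  refine ⟨0, fun P => ?_⟩
  rw [mltjMulVec_algebraMap, zero_add]
  rfl

/-- **eigenvectors modulo constants of the generators are eigenvectors modulo constants of all
polynomials** -/
theorem mltj_mat_eigen (a : S → ℤ) (f : σ → M) (hrow : ∀ s, ∃ r, MltjRowSum (A s) r)
    (heig : ∀ s, MltjEigMod (A s) f (a s)) (h : FreeAlgebra ℤ S) :
    (∃ r, MltjRowSum (FreeAlgebra.lift ℤ A h) r) ∧
      MltjEigMod (FreeAlgebra.lift ℤ A h) f (FreeAlgebra.lift ℤ a h) := by
  induction h using FreeAlgebra.induction with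
  | grade0 c =>
    rw [AlgHom.commutes, AlgHom.commutes]
    exact ⟨⟨c, mltj_rowSum_algebraMap c⟩, mltj_eigMod_algebraMap c f⟩
  | grade1 s =>
    rw [FreeAlgebra.lift_ι_apply, FreeAlgebra.lift_ι_apply]
    exact ⟨hrow s, heig s⟩
  | mul x y hx hy =>
    obtain ⟨⟨r, hr⟩, hxe⟩ := hx
    obtain ⟨⟨s, hs⟩, hye⟩ := hy
    rw [map_mul, map_mul]
    exact ⟨⟨r * s, mltj_rowSum_mul hr hs⟩, mltj_eigMod_mul hxe hr hye⟩
  | add x y hx hy =>
    obtain ⟨⟨r, hr⟩, hxe⟩ := hx
    obtain ⟨⟨s, hs⟩, hye⟩ := hy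
    rw [map_add, map_add]
    exact ⟨⟨r + s, mltj_rowSum_add hr hs⟩, mltj_eigMod_add hxe hye⟩

/-- **the final step**: if all rows of `ρ h` are equal and `p ∤ θ h`, an eigenvector modulo constants
with `p`-torsion differences is constant -/
theorem mltj_mat_const (a : S → ℤ) (f : σ → M) (hrow : ∀ s, ∃ r, MltjRowSum (A s) r)
    (heig : ∀ s, MltjEigMod (A s) f (a s)) (h : FreeAlgebra ℤ S)
    (hrows : ∀ P P' Q, FreeAlgebra.lift ℤ A h P Q = FreeAlgebra.lift ℤ A h P' Q)
    (p : ℕ) (hp : p.Prime) (hθ : ((FreeAlgebra.lift ℤ a h : ℤ) : ZMod p) ≠ 0)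
    (hf : ∀ P P', p • (f P - f P') = 0) (P P' : σ) : f P = f P' := by
  obtain ⟨c, hc⟩ := (mltj_mat_eigen A a f hrow heig h).2
  set t : ℤ := FreeAlgebra.lift ℤ a h with ht
  have h1 : mltjMulVec (FreeAlgebra.lift ℤ A h) f P = mltjMulVec (FreeAlgebra.lift ℤ A h) f P' := by
    rw [mltjMulVec_apply, mltjMulVec_apply]
    exact Finset.sum_congr rfl fun Q _ => by rw [hrows P P' Q]
  rw [hc P, hc P'] at h1
  have h2 : t • (f P - f P') = 0 := by
    rw [smul_sub, sub_eq_zero]
    exact add_left_cancel h1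
  have hcop : IsCoprime t (p : ℤ) := by
    rw [Int.isCoprime_iff_gcd_eq_one]
    have h3 : ¬ (p : ℤ) ∣ t := fun hd => hθ ((ZMod.intCast_zmod_eq_zero_iff_dvd t p).mpr hd)
    have h4 := (Nat.Prime.coprime_iff_not_dvd hp).mpr (fun hd : p ∣ t.natAbs =>
      h3 (Int.natCast_dvd.mpr hd))
    rw [Int.gcd_comm]
    exact h4
  obtain ⟨u, v, huv⟩ := hcop
  have h5 : f P - f P' = (u * t + v * (p : ℤ)) • (f P - f P') := by rw [huv, one_smul]
  rw [add_smul, mul_smul, mul_smul, h2, smul_zero, natCast_zsmul, hf P P', smul_zero,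
    add_zero] at h5
  exact sub_eq_zero.mp h5

end Eigen

section Equivariant

variable {σ : Type*} [Fintype σ] [DecidableEq σ] {S : Type*} (A : S → Matrix σ σ ℤ)
  {D : Type*} [AddCommGroup D]

/-- **an additive map intertwining the generators intertwines all polynomials** -/
theorem mltj_mat_equivariant (T : S → Module.End ℤ D) (sl : D →+ (σ → ℚ))
    (hsl : ∀ s d P, sl (T s d) P = ∑ Q, (A s P Q : ℚ) * sl d Q) (h : FreeAlgebra ℤ S) (d : D)
    (P : σ) :
    sl (FreeAlgebra.lift ℤ T h d) P = ∑ Q, ((FreeAlgebra.lift ℤ A h) P Q : ℚ) * sl d Q := by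
  induction h using FreeAlgebra.induction generalizing d P with
  | grade0 c =>
    rw [AlgHom.commutes, AlgHom.commutes, Module.algebraMap_end_apply, map_zsmul, Pi.smul_apply]
    rw [Finset.sum_eq_single P]
    · rw [Matrix.algebraMap_matrix_apply, if_pos rfl, zsmul_eq_mul]
      rfl
    · intro Q _ hQ
      rw [Matrix.algebraMap_matrix_apply, if_neg (Ne.symm hQ), Int.cast_zero, zero_mul]
    · intro hP
      exact absurd (Finset.mem_univ P) hP
  | grade1 s =>
    rw [FreeAlgebra.lift_ι_apply, FreeAlgebra.lift_ι_apply]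
    exact hsl s d P
  | mul x y hx hy =>
    rw [map_mul, map_mul, Module.End.mul_apply, hx]
    simp only [hy, Matrix.mul_apply, Int.cast_sum, Int.cast_mul, Finset.mul_sum, Finset.sum_mul]
    rw [Finset.sum_comm]
    refine Finset.sum_congr rfl fun Q _ => Finset.sum_congr rfl fun Q' _ => ?_
    ring
  | add x y hx hy =>
    rw [map_add, map_add, LinearMap.add_apply, map_add, Pi.add_apply, hx, hy]
    simp only [Matrix.add_apply, Int.cast_add, add_mul, Finset.sum_add_distrib]

end Equivariant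

end Fermat.Agent.MLT
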