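/-
MLT / [L2] (helper9), package (JL-K), part 3: **the set `Σ` of supersingular places is intrinsic and finite**.

* `mltj_nodes₁_iff`  : (abstract Σ-GLUE) a place `P` of the chart of the first component is the first branch
                       of a node iff no element `(b₁, 0)` of `S` has `b₁(P) = 1`; so `nodes₁` depends on
                       `(x, S)` only;
* `mltjSS_iff`       : `P ∈ mltjSS` iff `P` is the first branch of a node of ANY given setup at the level `⊤`;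
* `mltjSS_finite`.
-/
import Fermat.Agent.Lib.MLT.Contracts.L2JL

set_option autoImplicit false
set_option linter.unusedSectionVars false
set_option linter.unusedVariables false
set_option linter.style.haveILetI false
set_option synthInstance.maxHeartbeats 400000

namespace Fermat.Agent.MLT

open ModularCurve HahnSeries Fermat.Agent.T1 Fermat.Agent.T2 Fermat.Agent.TW
  Fermat.Agent.Delta Fermat.Agent.T3 Fermat.Agent.Alpha AlgebraicCurve Fermat.Agent.Curve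
  Fermat.Agent.Ihara Fermat.Agent.Mazur Fermat.Agent.S33 Fermat.Agent.S33Q

local notation "Qb" => AlgebraicClosure ℚ

noncomputable section

section Abs

variable {k κ₁ κ₂ : Type*} [Field k] [Field κ₁] [Field κ₂] [Algebra k κ₁] [Algebra k κ₂]
  [IsAlgClosed k] {σ : Type*} [Fintype σ] (G : DlgData k κ₁ κ₂ σ)

/-- **the first branches of the nodes are determined by `(x, S)`** -/
theorem mltj_nodes₁_iff (P : Place k κ₁) :
    (∃ Q, (P, Q) ∈ G.nodes) ↔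
      0 ≤ P.ord G.x.1 ∧ ¬ ∃ b ∈ G.S, DlgVal P b.1 1 ∧ b.2 = 0 := by
  constructor
  · rintro ⟨Q, hQ⟩
    refine ⟨(G.nodes_fin hQ).1, ?_⟩
    rintro ⟨b, hb, hb1, hb2⟩
    have h1 : DlgVal Q b.2 1 := (G.val_node hb hQ 1).mp hb1
    rw [hb2] at h1
    exact one_ne_zero (h1.unique (DlgVal.zero Q))
  · rintro ⟨hP, hno⟩
    by_contra hfree
    have hfree' : ∀ Q, (P, Q) ∉ G.nodes := fun Q hQ => hfree ⟨Q, hQ⟩
    obtain ⟨a, -, b, hb, hb1, hb2, -, -⟩ :=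
      G.local_free₁ hP hfree' (f := 1) (c := 1) (DlgVal.one P)
    exact hno ⟨b, hb, hb1, hb2⟩

end Abs

attribute [local instance] t2i_dvr t2i_isAlgClosed t2i_charP t2i_fact

variable (𝔓 : FFPlace) (K : ℕ) [NeZero K] (hK : ¬ 𝔓.p ∣ K) (h49 : 4 ∣ K ∨ 9 ∣ K)

/-- the gluing data of two setups at the level `⊤` have the same `S` -/
theorem mltj_S_eq {n n' : ℕ} (su : T2Setup (t2iBase2Fix 𝔓 ⊤ K hK) (Fin n))
    (hx : su.x = t2gaX 𝔓 ⊤ K hK (𝔓.p ^ 2)) (hxb : su.xb = (s33qXi 𝔓 K, s33qXi 𝔓 K))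
    (su' : T2Setup (t2iBase2Fix 𝔓 ⊤ K hK) (Fin n'))
    (hx' : su'.x = t2gaX 𝔓 ⊤ K hK (𝔓.p ^ 2)) (hxb' : su'.xb = (s33qXi 𝔓 K, s33qXi 𝔓 K))
    (t : ↥(tbBarF 𝔓 K) × ↥(tbBarF 𝔓 K)) :
    t ∈ (dlgDataH 𝔓 ⊤ K hK h49 su hx hxb).S ↔ t ∈ (dlgDataH 𝔓 ⊤ K hK h49 su' hx' hxb').S := by
  rw [dlgDataH_mem_S, dlgDataH_mem_S, hx, hx']

/-- **`Σ` is the set of the first branches of the nodes of any setup at the level `⊤`** -/
theorem mltjSS_iff {n : ℕ} (su : T2Setup (t2iBase2Fix 𝔓 ⊤ K hK) (Fin n))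
    (hx : su.x = t2gaX 𝔓 ⊤ K hK (𝔓.p ^ 2)) (hxb : su.xb = (s33qXi 𝔓 K, s33qXi 𝔓 K))
    (P : Place (IsLocalRing.ResidueField ↥𝔓.P) ↥(tbBarF 𝔓 K)) :
    P ∈ mltjSS 𝔓 K hK h49 ↔ ∃ Q, (P, Q) ∈ (dlgDataH 𝔓 ⊤ K hK h49 su hx hxb).nodes := by
  constructor
  · rintro ⟨n', su', hx', hxb', hQ⟩
    rw [mltj_nodes₁_iff] at hQ ⊢
    obtain ⟨h1, h2⟩ := hQ
    rw [dlgDataH_x'] at h1 ⊢
    refine ⟨h1, ?_⟩
    rintro ⟨b, hb, hb1, hb2⟩
    exact h2 ⟨b, (mltj_S_eq 𝔓 K hK h49 su hx hxb su' hx' hxb' b).mp hb, hb1, hb2⟩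
  · intro hQ
    exact ⟨n, su, hx, hxb, hQ⟩

/-- **`Σ` is finite** -/
theorem mltjSS_finite : (mltjSS 𝔓 K hK h49).Finite := by
  classical
  obtain ⟨n, su, hx, hxb⟩ := s33q_exists_setup_level 𝔓 K hK h49 ⊤
  refine Set.Finite.subset ((dlgDataH 𝔓 ⊤ K hK h49 su hx hxb).nodes₁ : Set _).toFinite ?_
  intro P hP
  rw [Finset.mem_coe, DlgData.mem_nodes₁]
  exact (mltjSS_iff 𝔓 K hK h49 su hx hxb P).mp hP

end

end Fermat.Agent.MLT
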