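/-
MLT / [L2] (helper9), package (JL-K), part 4: **the Brandt matrices on `Σ`**.

`σ = ↥(mltjSS 𝔓 K hK h49)` (finite), `mltjMat … ℓ P Q := (β̄_* ᾱ^* P)(Q)` for `ℓ ∈ S`.  Under (BR-SS):
* `mltj_sum_SS`        : a `Finsupp.sum` over a divisor supported on `Σ` is a sum over `σ`;
* `mltj_rowSum`        : the row sums of `mltjMat ℓ` are `ℓ + 1`;
* `mltjFunS_mat`       : the operator `β̄_* ᾱ^*` on functions is computed on `Σ` by `mltjMat ℓ`;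
* `mltjFunRho_mat`     : the same for all non-commutative polynomials.
-/
import Fermat.Agent.Lib.MLT.L2.Kill.SS
import Fermat.Agent.Lib.MLT.L2.Kill.Matrix

set_option autoImplicit false
set_option linter.unusedSectionVars false
set_option linter.unusedVariables false
set_option linter.style.haveILetI false
set_option synthInstance.maxHeartbeats 400000

namespace Fermat.Agent.MLT

open ModularCurve HahnSeries Fermat.Agent.T1 Fermat.Agent.T2 Fermat.Agent.TW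
  Fermat.Agent.Delta Fermat.Agent.T3 Fermat.Agent.Alpha AlgebraicCurve Fermat.Agent.Curve
  Fermat.Agent.Ihara Fermat.Agent.Mazur Fermat.Agent.S33 Fermat.Agent.S33Q

local notation "Qb" => AlgebraicClosure ℚ

noncomputable section

attribute [local instance 5000] dlhAlgK

variable (𝔓 : FFPlace) (K : ℕ) [NeZero K] (hK : ¬ 𝔓.p ∣ K) (h49 : 4 ∣ K ∨ 9 ∣ K)
  [Fintype ↥(mltjSS 𝔓 K hK h49)] [DecidableEq ↥(mltjSS 𝔓 K hK h49)]

/-- a `Finsupp.sum` over a divisor supported on `Σ` is a sum over `Σ` -/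
theorem mltj_sum_SS {M : Type*} [AddCommMonoid M]
    (E : Divisor (IsLocalRing.ResidueField ↥𝔓.P) ↥(tbBarF 𝔓 K))
    (hE : ∀ Q, E Q ≠ 0 → Q ∈ mltjSS 𝔓 K hK h49)
    (g : Place (IsLocalRing.ResidueField ↥𝔓.P) ↥(tbBarF 𝔓 K) → ℤ → M) (hg : ∀ Q, g Q 0 = 0) :
    E.sum g = ∑ Q : ↥(mltjSS 𝔓 K hK h49), g Q.1 (E Q.1) := by
  classical
  have hfin := mltjSS_finite 𝔓 K hK h49
  have h1 : E.sum g = ∑ Q ∈ hfin.toFinset, g Q (E Q) := by
    unfold Finsupp.sum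
    refine Finset.sum_subset ?_ ?_
    · intro Q hQ
      rw [Set.Finite.mem_toFinset]
      exact hE Q (Finsupp.mem_support_iff.mp hQ)
    · intro Q _ hQ
      rw [Finsupp.notMem_support_iff.mp hQ, hg]
  rw [h1]
  refine Finset.sum_subtype hfin.toFinset (fun Q => ?_) (fun Q => g Q (E Q))
  rw [Set.Finite.mem_toFinset]

section Mat

variable (S : Set Nat.Primes) (hS : ∀ ℓ ∈ S, ¬ ((ℓ : Nat.Primes) : ℕ) ∣ K * 𝔓.p)

include hS in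
theorem mltj_not_dvd_K (ℓ : ↥S) : ¬ ((ℓ : Nat.Primes) : ℕ) ∣ K := fun h =>
  hS ℓ.1 ℓ.2 (Dvd.dvd.mul_right h _)

/-- the transposed correspondence for `ℓ ∈ S` -/
def mltjBrTS (ℓ : ↥S) : Divisor (IsLocalRing.ResidueField ↥𝔓.P) ↥(tbBarF 𝔓 K) →+
    Divisor (IsLocalRing.ResidueField ↥𝔓.P) ↥(tbBarF 𝔓 K) :=
  haveI : NeZero ((ℓ : Nat.Primes) : ℕ) := ⟨ℓ.1.2.ne_zero⟩
  mltjBrT 𝔓 K hK ((ℓ : Nat.Primes) : ℕ) ℓ.1.2 (mltj_ne_p 𝔓 K S hS ℓ)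

/-- **the Brandt matrix** of `ℓ ∈ S` on `Σ` -/
def mltjMat (ℓ : ↥S) : Matrix ↥(mltjSS 𝔓 K hK h49) ↥(mltjSS 𝔓 K hK h49) ℤ :=
  Matrix.of fun P Q => mltjBrTS 𝔓 K hK S hS ℓ (Finsupp.single P.1 1) Q.1

theorem mltjMat_apply (ℓ : ↥S) (P Q : ↥(mltjSS 𝔓 K hK h49)) :
    mltjMat 𝔓 K hK h49 S hS ℓ P Q = mltjBrTS 𝔓 K hK S hS ℓ (Finsupp.single P.1 1) Q.1 := rfl

variable (hBS : MltjBrSSAt 𝔓 K hK h49)

include hBS in
theorem mltj_brT_supp (ℓ : ↥S) (P : ↥(mltjSS 𝔓 K hK h49))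
    (Q : Place (IsLocalRing.ResidueField ↥𝔓.P) ↥(tbBarF 𝔓 K))
    (hQ : mltjBrTS 𝔓 K hK S hS ℓ (Finsupp.single P.1 1) Q ≠ 0) : Q ∈ mltjSS 𝔓 K hK h49 :=
  haveI : NeZero ((ℓ : Nat.Primes) : ℕ) := ⟨ℓ.1.2.ne_zero⟩
  hBS ((ℓ : Nat.Primes) : ℕ) ℓ.1.2 (mltj_ne_p 𝔓 K S hS ℓ) (mltj_not_dvd_K 𝔓 K S hS ℓ)
    P.1 P.2 Q hQ

include hBS in
/-- **the operator `β̄_* ᾱ^*` on functions is computed on `Σ` by the Brandt matrix** -/
theorem mltjFunS_mat (ℓ : ↥S) (v : Place (IsLocalRing.ResidueField ↥𝔓.P) ↥(tbBarF 𝔓 K) → ℤ)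
    (P : ↥(mltjSS 𝔓 K hK h49)) :
    mltjFunS 𝔓 K hK S hS ℓ v P.1
      = ∑ Q : ↥(mltjSS 𝔓 K hK h49), mltjMat 𝔓 K hK h49 S hS ℓ P Q * v Q.1 := by
  haveI : NeZero ((ℓ : Nat.Primes) : ℕ) := ⟨ℓ.1.2.ne_zero⟩
  exact mltj_sum_SS 𝔓 K hK h49 (mltjBrTS 𝔓 K hK S hS ℓ (Finsupp.single P.1 1))
    (fun Q hQ => mltj_brT_supp 𝔓 K hK h49 S hS hBS ℓ P Q hQ) (fun Q n => n * v Q)
    (fun Q => zero_mul _)

include hBS in
/-- **non-commutative polynomials in the `β̄_* ᾱ^*` on functions are computed on `Σ` by the polynomials in the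
Brandt matrices** -/
theorem mltjFunRho_mat (h : FreeAlgebra ℤ ↥S)
    (v : Place (IsLocalRing.ResidueField ↥𝔓.P) ↥(tbBarF 𝔓 K) → ℤ) (P : ↥(mltjSS 𝔓 K hK h49)) :
    mltjFunRho 𝔓 K hK S hS h v P.1
      = ∑ Q : ↥(mltjSS 𝔓 K hK h49),
          (FreeAlgebra.lift ℤ (mltjMat 𝔓 K hK h49 S hS) h) P Q * v Q.1 := by
  induction h using FreeAlgebra.induction generalizing v P with
  | grade0 c =>
    rw [AlgHom.commutes, AlgHom.commutes, Module.algebraMap_end_apply, Pi.smul_apply, smul_eq_mul,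
      Finset.sum_eq_single P]
    · rw [Matrix.algebraMap_matrix_apply, if_pos rfl]
      rfl
    · intro Q _ hQ
      rw [Matrix.algebraMap_matrix_apply, if_neg (Ne.symm hQ), zero_mul]
    · intro hP
      exact absurd (Finset.mem_univ P) hP
  | grade1 ℓ =>
    rw [mltjFunRho_ι, FreeAlgebra.lift_ι_apply]
    exact mltjFunS_mat 𝔓 K hK h49 S hS hBS ℓ v P
  | mul x y hx hy =>
    rw [map_mul, map_mul, Module.End.mul_apply, hx]
    simp only [hy, Matrix.mul_apply, Finset.mul_sum, Finset.sum_mul]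
    rw [Finset.sum_comm]
    refine Finset.sum_congr rfl fun Q _ => Finset.sum_congr rfl fun Q' _ => ?_
    ring
  | add x y hx hy =>
    rw [map_add, map_add, LinearMap.add_apply, Pi.add_apply, hx, hy]
    simp only [Matrix.add_apply, add_mul, Finset.sum_add_distrib]

end Mat

section RowSum

variable (S : Set Nat.Primes) (hS : ∀ ℓ ∈ S, ¬ ((ℓ : Nat.Primes) : ℕ) ∣ K * 𝔓.p)
  (hBS : MltjBrSSAt 𝔓 K hK h49)

include hK in
/-- over the algebraically closed field `𝔽̄_q` the degree is the sum of the coefficients -/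
theorem mltj_degree_eq_sum (E : Divisor (IsLocalRing.ResidueField ↥𝔓.P) ↥(tbBarF 𝔓 K)) :
    Divisor.degree E = E.sum (fun _ n => n) := by
  haveI : IsAlgClosed (IsLocalRing.ResidueField ↥𝔓.P) := tb_isAlgClosed_residueField 𝔓.P
  unfold Divisor.degree
  rw [Finsupp.liftAddHom_apply]
  refine Finsupp.sum_congr fun v _ => ?_
  rw [AddMonoidHom.mulRight_apply,
    Fermat.Agent.Curve.PlaceAux.deg_eq_one (tbq_bar_isFunctionFieldGen 𝔓 K) v, Nat.cast_one, mul_one]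

include h49 hBS in
/-- **the row sums of the Brandt matrix of `ℓ` are `ℓ + 1`** -/
theorem mltj_rowSum (ℓ : ↥S) :
    MltjRowSum (mltjMat 𝔓 K hK h49 S hS ℓ) ((((ℓ : Nat.Primes) : ℕ) : ℤ) + 1) := by
  classical
  haveI : NeZero ((ℓ : Nat.Primes) : ℕ) := ⟨ℓ.1.2.ne_zero⟩
  haveI := ihbc_hasPrincipalDivisors 𝔓 (K * ((ℓ : Nat.Primes) : ℕ))
    (dlh_not_dvd_mul 𝔓 hK ℓ.1.2 (mltj_ne_p 𝔓 K S hS ℓ))
  intro P
  have h1 := mltj_sum_SS 𝔓 K hK h49 (mltjBrTS 𝔓 K hK S hS ℓ (Finsupp.single P.1 1))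
    (fun Q hQ => mltj_brT_supp 𝔓 K hK h49 S hS hBS ℓ P Q hQ) (fun _ n => n) (fun _ => rfl)
  have h2 : ∑ Q : ↥(mltjSS 𝔓 K hK h49), mltjMat 𝔓 K hK h49 S hS ℓ P Q
      = (mltjBrTS 𝔓 K hK S hS ℓ (Finsupp.single P.1 1)).sum (fun _ n => n) := by
    rw [h1]
    rfl
  rw [h2, ← mltj_degree_eq_sum 𝔓 K hK]
  have h3 := Divisor.degree_correspondence (dlhAlphaC (IsLocalRing.ResidueField ↥𝔓.P) K (ℓ : Nat.Primes))
    (dlhBetaC (IsLocalRing.ResidueField ↥𝔓.P) K (ℓ : Nat.Primes))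
    (mzr5i_alphaC_integral 𝔓 K (ℓ : Nat.Primes))
    (mzr5p_integral_beta (IsLocalRing.ResidueField ↥𝔓.P) K (ℓ : Nat.Primes))
    (mzr5i_alphaC_fundamental 𝔓 K (ℓ : Nat.Primes) h49 hK ℓ.1.2 (mltj_ne_p 𝔓 K S hS ℓ))
    (Finsupp.single P.1 1)
  have h4 : finrankAlong (IsLocalRing.ResidueField ↥𝔓.P)
      (dlhAlphaC (IsLocalRing.ResidueField ↥𝔓.P) K (ℓ : Nat.Primes)) = ((ℓ : Nat.Primes) : ℕ) + 1 :=
    dlh_finrank_alphaC 𝔓 h49 hK ℓ.1.2 (mltj_not_dvd_K 𝔓 K S hS ℓ) (mltj_ne_p 𝔓 K S hS ℓ)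
  rw [h4, mltj_degree_eq_sum 𝔓 K hK (Finsupp.single P.1 1), Finsupp.sum_single_index rfl] at h3
  refine Eq.trans ?_ (h3.trans ?_)
  · rfl
  · push_cast
    ring

end RowSum

end

end Fermat.Agent.MLT
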