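/-
MLT / [L2] (helper9), two-level variant of the matrix algebra of the final step (no geometry).

* `mltj_mat_const_of_eq` : `mltj_mat_const` with the hypothesis "all rows of `ρ h` are equal" replaced by its
                           only consequence which is used: `(ρ h) f` takes the same value at `P` and `P'`;
* `mltj_mulVec_level`    : `(B f)(P) = Σ_{m ∈ f(σ)} (Σ_Q B(P,Q) · [f Q = m]) • m`: the action on `M`-valued
                           vectors is determined by the action on the indicator functions of the level sets;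
* `mltj_mulVec_eq_of_level` : if `B` maps the indicator functions of the level sets of `f` to vectors with equal
                           entries at `P` and `P'`, then `(B f)(P) = (B f)(P')`.
-/
import Mathlib
import Fermat.Agent.Lib.MLT.L2.Kill.Matrix

set_option autoImplicit false
set_option linter.unusedSectionVars false
set_option linter.unusedVariables false

namespace Fermat.Agent.MLT

open Matrix

section EigenTwo

variable {σ : Type*} [Fintype σ] [DecidableEq σ] {S : Type*} (A : S → Matrix σ σ ℤ)
  {M : Type*} [AddCommGroup M]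

/-- **the final step, general form**: if `(ρ h) f` takes the same value at `P` and `P'` and `p ∤ θ h`, an
eigenvector modulo constants with `p • (f P - f P') = 0` has `f P = f P'` -/
theorem mltj_mat_const_of_eq (a : S → ℤ) (f : σ → M) (hrow : ∀ s, ∃ r, MltjRowSum (A s) r)
    (heig : ∀ s, MltjEigMod (A s) f (a s)) (h : FreeAlgebra ℤ S) (P P' : σ)
    (hPP' : mltjMulVec (FreeAlgebra.lift ℤ A h) f P = mltjMulVec (FreeAlgebra.lift ℤ A h) f P')
    (p : ℕ) (hp : p.Prime) (hθ : ((FreeAlgebra.lift ℤ a h : ℤ) : ZMod p) ≠ 0)
    (hf : p • (f P - f P') = 0) : f P = f P' := by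
  obtain ⟨c, hc⟩ := (mltj_mat_eigen A a f hrow heig h).2
  set t : ℤ := FreeAlgebra.lift ℤ a h with ht
  have h1 := hPP'
  rw [hc P, hc P'] at h1
  have h2 : t • (f P - f P') = 0 := by
    rw [smul_sub, sub_eq_zero]
    exact add_left_cancel h1
  have hcop : IsCoprime t (p : ℤ) := by
    rw [Int.isCoprime_iff_gcd_eq_one]
    have h3 : ¬ (p : ℤ) ∣ t := fun hd => hθ ((ZMod.intCast_zmod_eq_zero_iff_dvd t p).mpr hd)
    have h4 := (Nat.Prime.coprime_iff_not_dvd hp).mpr (fun hd : p ∣ t.natAbs =>
      h3 (Int.natCast_dvd.mpr hd))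
    rw [Int.gcd_comm]
    exact h4
  obtain ⟨u, v, huv⟩ := hcop
  have h5 : f P - f P' = (u * t + v * (p : ℤ)) • (f P - f P') := by rw [huv, one_smul]
  rw [add_smul, mul_smul, mul_smul, h2, smul_zero, natCast_zsmul, hf, smul_zero, add_zero] at h5
  exact sub_eq_zero.mp h5

variable [DecidableEq M]

/-- the action on `M`-valued vectors through the indicator functions of the level sets -/
theorem mltj_mulVec_level (B : Matrix σ σ ℤ) (f : σ → M) (P : σ) :
    mltjMulVec B f P
      = ∑ m ∈ Finset.univ.image f, (∑ Q, B P Q * (if f Q = m then 1 else 0)) • m := by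
  rw [mltjMulVec_apply]
  simp only [Finset.sum_smul]
  rw [Finset.sum_comm]
  refine Finset.sum_congr rfl fun Q _ => ?_
  rw [Finset.sum_eq_single (f Q)]
  · rw [if_pos rfl, mul_one]
  · intro m _ hm
    rw [if_neg (Ne.symm hm), mul_zero, zero_smul]
  · intro hQ
    exact absurd (Finset.mem_image_of_mem f (Finset.mem_univ Q)) hQ

/-- if `B` maps the indicator functions of the level sets of `f` to vectors with equal entries at `P` and
`P'`, then `(B f)(P) = (B f)(P')` -/
theorem mltj_mulVec_eq_of_level (B : Matrix σ σ ℤ) (f : σ → M) (P P' : σ)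
    (hB : ∀ m : M, ∑ Q, B P Q * (if f Q = m then 1 else 0)
      = ∑ Q, B P' Q * (if f Q = m then 1 else 0)) :
    mltjMulVec B f P = mltjMulVec B f P' := by
  rw [mltj_mulVec_level, mltj_mulVec_level]
  exact Finset.sum_congr rfl fun m _ => by rw [hB m]

end EigenTwo

end Fermat.Agent.MLT
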