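/-
MLT / [L2] (helper9), package (JL-K), part 1: **the abstract killer argument with an open subgroup**.

Variant of `ihbc_kill_of_finite` (`Lib/Ihara/B/Cmp/PullZero.lean`) in which the single element `g` is
replaced by a subgroup `U` of the acting group: an equivariant endomorphism `H` of a divisible group `J`
killing the torsion is killed by any homomorphism `R` which maps the points fixed by `U` into a finite
subgroup, at every point fixed by `U`.
-/
import Mathlib

set_option autoImplicit false
set_option linter.unusedSectionVars false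
set_option linter.unusedVariables false

namespace Fermat.Agent.MLT

/-- **the abstract killer argument (subgroup form)** -/
theorem mltj_kill_of_finite {G J B : Type*} [Group G] [AddCommGroup J] [DistribMulAction G J]
    [AddCommGroup B] (hdiv : ∀ m : ℕ, m ≠ 0 → ∀ x : J, ∃ z : J, m • z = x)
    (H : J →+ J) (hG : ∀ (g : G) (x : J), H (g • x) = g • H x)
    (htors : ∀ n : ℕ, n ≠ 0 → ∀ y : J, n • y = 0 → H y = 0)
    (R : J →+ B) (U : Subgroup G) (B₀ : AddSubgroup B) [Finite B₀] (x : J)
    (hUx : ∀ g ∈ U, g • x = x) (hB : ∀ w : J, (∀ g ∈ U, g • w = w) → R w ∈ B₀) :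
    R (H x) = 0 := by
  have hn : Nat.card B₀ ≠ 0 := Nat.card_pos.ne'
  obtain ⟨z, hz⟩ := hdiv _ hn x
  have h2 : ∀ g ∈ U, g • H z = H z := by
    intro g hg
    have h1 : H (g • z - z) = 0 := by
      refine htors _ hn _ ?_
      rw [smul_sub, ← smul_comm g (Nat.card ↥B₀) z, hz, hUx g hg, sub_self]
    rw [← hG, ← sub_eq_zero, ← map_sub]
    exact h1
  have h3 : R (H z) ∈ B₀ := hB _ h2
  have h4 : Nat.card ↥B₀ • (⟨R (H z), h3⟩ : ↥B₀) = 0 := card_nsmul_eq_zero'
  have h5 : Nat.card ↥B₀ • R (H z) = 0 := by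
    have := congrArg (Subtype.val) h4
    rwa [AddSubgroup.coe_nsmul, AddSubgroup.coe_zero] at this
  rw [← hz, map_nsmul, map_nsmul]
  exact h5

/-- the same with a bound on the exponent instead of a finite subgroup: if `e • R w = 0` for all
points `w` fixed by `U`, then `R (H x) = 0` for `x` fixed by `U` -/
theorem mltj_kill_of_exponent {G J B : Type*} [Group G] [AddCommGroup J] [DistribMulAction G J]
    [AddCommGroup B] (hdiv : ∀ m : ℕ, m ≠ 0 → ∀ x : J, ∃ z : J, m • z = x)
    (H : J →+ J) (hG : ∀ (g : G) (x : J), H (g • x) = g • H x)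
    (htors : ∀ n : ℕ, n ≠ 0 → ∀ y : J, n • y = 0 → H y = 0)
    (R : J →+ B) (U : Subgroup G) (e : ℕ) (he : e ≠ 0) (x : J)
    (hUx : ∀ g ∈ U, g • x = x) (hB : ∀ w : J, (∀ g ∈ U, g • w = w) → e • R w = 0) :
    R (H x) = 0 := by
  obtain ⟨z, hz⟩ := hdiv _ he x
  have h2 : ∀ g ∈ U, g • H z = H z := by
    intro g hg
    have h1 : H (g • z - z) = 0 := by
      refine htors _ he _ ?_
      rw [smul_sub, ← smul_comm g e z, hz, hUx g hg, sub_self]
    rw [← hG, ← sub_eq_zero, ← map_sub]
    exact h1
  rw [← hz, map_nsmul, map_nsmul]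
  exact hB _ h2

end Fermat.Agent.MLT
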