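/-
MLT / [L2] (helper9), package (JL-K), part 5 = (S6): **the component killer from the slope map**

    `MltjSlopeEx → MltjBrSS → MltjJLK`.

`s : MltjSlope 𝔓 K hK h49`.  The slope vector restricted to `σ = Σ` induces
`R : J₀(K q)(ℚ̄) → B := ℚ^σ / (ℚ·𝟙 + ⊕ w_P ℤ)` (S2).  A polynomial `h` in the `T_ℓ` killing the torsion of `J₀(K q)`
satisfies `R ∘ h = 0` (abstract killer: `J` is divisible, every point is fixed by an open subgroup `U`, and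
`R (J^{U ∩ I})` has finite exponent (S4)).  By (S3) `R ∘ h = h^{Br} ∘ R`, and by (S5) the vectors
`a/m · e_Q` are slope vectors; so the column `u = h^{Br} e_Q` has `a u/m ∈ ℚ·𝟙 + ⊕ w_P ℤ` for arbitrarily
large `m` prime to `a`: all entries of `u` are equal.
-/
import Fermat.Agent.Lib.MLT.L2.Kill.SSMat
import Fermat.Agent.Lib.MLT.L2.Kill.Abstract
import Fermat.Agent.Lib.Ihara.B.Cmp.PullZero

set_option autoImplicit false
set_option linter.unusedSectionVars false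
set_option linter.unusedVariables false
set_option linter.style.haveILetI false
set_option synthInstance.maxHeartbeats 400000

namespace Fermat.Agent.MLT

open ModularCurve HahnSeries Fermat.Agent.T1 Fermat.Agent.T2 Fermat.Agent.TW
  Fermat.Agent.Delta Fermat.Agent.T3 Fermat.Agent.Alpha AlgebraicCurve Fermat.Agent.Curve
  Fermat.Agent.Ihara Fermat.Agent.Mazur Fermat.Agent.S33 Fermat.Agent.S33Q

local notation "Qb" => AlgebraicClosure ℚ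
local notation "GQ" => (AlgebraicClosure ℚ ≃ₐ[ℚ] AlgebraicClosure ℚ)

noncomputable section

attribute [local instance 5000] dlhAlgK

/-! ### The lattice `ℚ·𝟙 + ⊕ w_P ℤ` -/

section Lattice

variable {σ : Type*} (w : σ → ℕ)

/-- the subgroup `ℚ·𝟙 + ⊕_P w_P ℤ` of `ℚ^σ` -/
def mltjLat : AddSubgroup (σ → ℚ) where
  carrier := {v | ∃ c : ℚ, ∀ P, ∃ n : ℤ, v P = c + w P * n}
  zero_mem' := ⟨0, fun P => ⟨0, by simp⟩⟩
  add_mem' := by
    rintro v v' ⟨c, hc⟩ ⟨d, hd⟩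
    refine ⟨c + d, fun P => ?_⟩
    obtain ⟨n, hn⟩ := hc P
    obtain ⟨m, hm⟩ := hd P
    exact ⟨n + m, by rw [Pi.add_apply, hn, hm]; push_cast; ring⟩
  neg_mem' := by
    rintro v ⟨c, hc⟩
    refine ⟨-c, fun P => ?_⟩
    obtain ⟨n, hn⟩ := hc P
    exact ⟨-n, by rw [Pi.neg_apply, hn]; push_cast; ring⟩

theorem mem_mltjLat {v : σ → ℚ} :
    v ∈ mltjLat w ↔ ∃ c : ℚ, ∀ P, ∃ n : ℤ, v P = c + w P * n := Iff.rfl

/-- the differences of the entries of a vector of the lattice are integers -/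
theorem mltjLat_sub {v : σ → ℚ} (hv : v ∈ mltjLat w) (P P' : σ) : ∃ n : ℤ, v P - v P' = n := by
  obtain ⟨c, hc⟩ := hv
  obtain ⟨n, hn⟩ := hc P
  obtain ⟨m, hm⟩ := hc P'
  exact ⟨w P * n - w P' * m, by rw [hn, hm]; push_cast; ring⟩

end Lattice

/-! ### The modular part -/

section Modular

variable (𝔓 : FFPlace) (K : ℕ) [NeZero K] (hK : ¬ 𝔓.p ∣ K) (h49 : 4 ∣ K ∨ 9 ∣ K)
  [Fintype ↥(mltjSS 𝔓 K hK h49)] [DecidableEq ↥(mltjSS 𝔓 K hK h49)]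
  (s : MltjSlope 𝔓 K hK h49)

/-- the slope vector restricted to `Σ` -/
def mltjSlS : Divisor Qb ↥(modularFunctionFieldBar (K * 𝔓.p)) →+ (↥(mltjSS 𝔓 K hK h49) → ℚ) where
  toFun D := fun P => s.sl D P.1
  map_zero' := by funext P; rw [map_zero]; rfl
  map_add' D E := by funext P; rw [map_add]; rfl

theorem mltjSlS_apply (D : Divisor Qb ↥(modularFunctionFieldBar (K * 𝔓.p)))
    (P : ↥(mltjSS 𝔓 K hK h49)) : mltjSlS 𝔓 K hK h49 s D P = s.sl D P.1 := rfl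

/-- the slope class of a divisor of degree zero -/
def mltjRDiv : Divisor.degZero (K := Qb) (F := ↥(modularFunctionFieldBar (K * 𝔓.p))) →+
    (↥(mltjSS 𝔓 K hK h49) → ℚ) ⧸ mltjLat (fun P : ↥(mltjSS 𝔓 K hK h49) => s.w P.1) :=
  (QuotientAddGroup.mk' _).comp ((mltjSlS 𝔓 K hK h49 s).comp (AddSubgroup.subtype _))

/-- **the slope map on `J₀(K q)(ℚ̄)`** (well defined by the conservation law (S2)) -/
def mltjR : JZero (K * 𝔓.p) →+
    (↥(mltjSS 𝔓 K hK h49) → ℚ) ⧸ mltjLat (fun P : ↥(mltjSS 𝔓 K hK h49) => s.w P.1) :=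
  QuotientAddGroup.lift _ (mltjRDiv 𝔓 K hK h49 s) (by
    intro D hD
    rw [AddSubgroup.mem_addSubgroupOf] at hD
    show (QuotientAddGroup.mk' _) (mltjSlS 𝔓 K hK h49 s (D : Divisor Qb _)) = 0
    rw [QuotientAddGroup.mk'_apply, QuotientAddGroup.eq_zero_iff]
    obtain ⟨c, hc⟩ := s.princ (D : Divisor Qb _) hD
    exact ⟨c, fun P => hc P.1 P.2⟩)

theorem mltjR_mk (D : Divisor.degZero (K := Qb) (F := ↥(modularFunctionFieldBar (K * 𝔓.p)))) :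
    mltjR 𝔓 K hK h49 s (Pic0.mk D)
      = QuotientAddGroup.mk (mltjSlS 𝔓 K hK h49 s (D : Divisor Qb _)) := rfl

variable (S : Set Nat.Primes) (hS : ∀ ℓ ∈ S, ¬ ((ℓ : Nat.Primes) : ℕ) ∣ K * 𝔓.p)

/-- `T_ℓ` on the divisors of `X₀(K q)_{ℚ̄}` for `ℓ ∈ S` -/
def mltjTDiv (ℓ : ↥S) : Module.End ℤ (Divisor Qb ↥(modularFunctionFieldBar (K * 𝔓.p))) :=
  haveI : NeZero ((ℓ : Nat.Primes) : ℕ) := ⟨ℓ.1.2.ne_zero⟩
  (heckeDivBar (t3h_alphaIntegral (K * 𝔓.p) ((ℓ : Nat.Primes) : ℕ))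
    (t3h_betaIntegral (K * 𝔓.p) ((ℓ : Nat.Primes) : ℕ))).toIntLinearMap

/-- polynomials in the `T_ℓ` on the divisors -/
def mltjRhoDiv : FreeAlgebra ℤ ↥S →ₐ[ℤ]
    Module.End ℤ (Divisor Qb ↥(modularFunctionFieldBar (K * 𝔓.p))) :=
  FreeAlgebra.lift ℤ (mltjTDiv 𝔓 K S)

/-- **polynomials in the `T_ℓ` on classes are computed on divisors** -/
theorem mltjRhoJ_mk (h : FreeAlgebra ℤ ↥S)
    (D : Divisor.degZero (K := Qb) (F := ↥(modularFunctionFieldBar (K * 𝔓.p)))) :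
    ∃ hD' : mltjRhoDiv 𝔓 K S h (D : Divisor Qb _)
        ∈ Divisor.degZero (K := Qb) (F := ↥(modularFunctionFieldBar (K * 𝔓.p))),
      ihbcRhoJ (K * 𝔓.p) S h (Pic0.mk D) = Pic0.mk ⟨mltjRhoDiv 𝔓 K S h (D : Divisor Qb _), hD'⟩ := by
  induction h using FreeAlgebra.induction generalizing D with
  | grade0 c =>
    have h1 : mltjRhoDiv 𝔓 K S (algebraMap ℤ _ c) (D : Divisor Qb _) = ((c • D : Divisor.degZero
        (K := Qb) (F := ↥(modularFunctionFieldBar (K * 𝔓.p)))) : Divisor Qb _) := by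
      rw [AlgHom.commutes, Module.algebraMap_end_apply]
      rfl
    refine ⟨(by rw [h1]; exact (c • D).2), ?_⟩
    rw [AlgHom.commutes, Module.algebraMap_end_apply]
    have h2 : c • (Pic0.mk D : JZero (K * 𝔓.p)) = Pic0.mk (c • D) := by
      unfold Pic0.mk
      exact (QuotientAddGroup.mk_zsmul _ _ c).symm
    rw [h2]
    exact congrArg Pic0.mk (Subtype.ext h1.symm)
  | grade1 ℓ =>
    haveI : NeZero ((ℓ : Nat.Primes) : ℕ) := ⟨ℓ.1.2.ne_zero⟩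
    have h1 : mltjRhoDiv 𝔓 K S (FreeAlgebra.ι ℤ ℓ) (D : Divisor Qb _)
        = heckeDivBar (t3h_alphaIntegral (K * 𝔓.p) ((ℓ : Nat.Primes) : ℕ))
          (t3h_betaIntegral (K * 𝔓.p) ((ℓ : Nat.Primes) : ℕ)) (D : Divisor Qb _) := by
      unfold mltjRhoDiv
      rw [FreeAlgebra.lift_ι_apply]
      rfl
    have h0 : mltjRhoDiv 𝔓 K S (FreeAlgebra.ι ℤ ℓ) (D : Divisor Qb _)
        ∈ Divisor.degZero (K := Qb) (F := ↥(modularFunctionFieldBar (K * 𝔓.p))) := by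
      rw [h1]
      exact Divisor.correspondence_mem_degZero _ _ _ _
        (t3h_betaFundamental (K * 𝔓.p) ((ℓ : Nat.Primes) : ℕ)) D.2
    refine ⟨h0, ?_⟩
    rw [ihbcRhoJ_ι]
    refine ((heckeOperatorBar_apply (N := K * 𝔓.p) ℓ.1 (Pic0.mk D)).trans
      (t3h_heckeOperatorAlong_mk (K * 𝔓.p) ((ℓ : Nat.Primes) : ℕ) D)).trans ?_
    exact congrArg Pic0.mk (Subtype.ext h1.symm)
  | mul x y hx hy =>
    obtain ⟨hy1, hy2⟩ := hy D
    obtain ⟨hx1, hx2⟩ := hx ⟨_, hy1⟩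
    have h1 : mltjRhoDiv 𝔓 K S (x * y) (D : Divisor Qb _)
        = mltjRhoDiv 𝔓 K S x (mltjRhoDiv 𝔓 K S y (D : Divisor Qb _)) := by
      rw [map_mul, Module.End.mul_apply]
    refine ⟨(by rw [h1]; exact hx1), ?_⟩
    rw [map_mul, Module.End.mul_apply, hy2, hx2]
    exact congrArg Pic0.mk (Subtype.ext h1.symm)
  | add x y hx hy =>
    obtain ⟨hy1, hy2⟩ := hy D
    obtain ⟨hx1, hx2⟩ := hx D
    have h1 : mltjRhoDiv 𝔓 K S (x + y) (D : Divisor Qb _)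
        = mltjRhoDiv 𝔓 K S x (D : Divisor Qb _) + mltjRhoDiv 𝔓 K S y (D : Divisor Qb _) := by
      rw [map_add, LinearMap.add_apply]
    refine ⟨(by rw [h1]; exact AddSubgroup.add_mem _ hx1 hy1), ?_⟩
    rw [map_add, LinearMap.add_apply, hy2, hx2, ← Pic0.mk_add]
    exact congrArg Pic0.mk (Subtype.ext h1.symm)

variable (hBS : MltjBrSSAt 𝔓 K hK h49)

include hBS in
/-- (S3) in matrix form -/
theorem mltjSlS_hecke (ℓ : ↥S) (D : Divisor Qb ↥(modularFunctionFieldBar (K * 𝔓.p)))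
    (P : ↥(mltjSS 𝔓 K hK h49)) :
    mltjSlS 𝔓 K hK h49 s (mltjTDiv 𝔓 K S ℓ D) P
      = ∑ Q, (mltjMat 𝔓 K hK h49 S hS ℓ P Q : ℚ) * mltjSlS 𝔓 K hK h49 s D Q := by
  haveI : NeZero ((ℓ : Nat.Primes) : ℕ) := ⟨ℓ.1.2.ne_zero⟩
  have h1 := s.hecke ((ℓ : Nat.Primes) : ℕ) ℓ.1.2 (mltj_ne_p 𝔓 K S hS ℓ)
    (mltj_not_dvd_K 𝔓 K S hS ℓ) D P.1 P.2
  have h2 := mltj_sum_SS 𝔓 K hK h49 (mltjBrTS 𝔓 K hK S hS ℓ (Finsupp.single P.1 1))
    (fun Q hQ => mltj_brT_supp 𝔓 K hK h49 S hS hBS ℓ P Q hQ)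
    (fun Q n => (n : ℚ) * s.sl D Q) (fun Q => by rw [Int.cast_zero, zero_mul])
  exact h1.trans h2

include hBS in
/-- (S3) for polynomials -/
theorem mltjSlS_rho (h : FreeAlgebra ℤ ↥S) (D : Divisor Qb ↥(modularFunctionFieldBar (K * 𝔓.p)))
    (P : ↥(mltjSS 𝔓 K hK h49)) :
    mltjSlS 𝔓 K hK h49 s (mltjRhoDiv 𝔓 K S h D) P
      = ∑ Q, ((FreeAlgebra.lift ℤ (mltjMat 𝔓 K hK h49 S hS) h) P Q : ℚ)
          * mltjSlS 𝔓 K hK h49 s D Q :=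
  mltj_mat_equivariant (mltjMat 𝔓 K hK h49 S hS) (mltjTDiv 𝔓 K S) (mltjSlS 𝔓 K hK h49 s)
    (fun ℓ d P => mltjSlS_hecke 𝔓 K hK h49 s S hS hBS ℓ d P) h D P

/-- **the killer kills the slope classes** -/
theorem mltjR_kill (h : FreeAlgebra ℤ ↥S)
    (hkill : ∀ n : ℕ, n ≠ 0 → ∀ y : JZero (K * 𝔓.p), n • y = 0 → ihbcRhoJ (K * 𝔓.p) S h y = 0)
    (x : JZero (K * 𝔓.p)) : mltjR 𝔓 K hK h49 s (ihbcRhoJ (K * 𝔓.p) S h x) = 0 := by
  obtain ⟨U₀, hU₀, hfix⟩ := ihbc_stab_finiteIndex (K * 𝔓.p) x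
  obtain ⟨e, he, hE⟩ := s.fixed U₀ hU₀
  set W : ℕ := ∏ P : ↥(mltjSS 𝔓 K hK h49), s.w P.1 with hW
  have hW0 : W ≠ 0 := Finset.prod_ne_zero_iff.mpr fun P _ => (s.w_pos P.1 P.2).ne'
  refine mltj_kill_of_exponent (G := GQ) (J := JZero (K * 𝔓.p))
    (fun m hm y => mzk_divisible (K * 𝔓.p) hm y)
    ((ihbcRhoJ (K * 𝔓.p) S h : Module.End ℤ (JZero (K * 𝔓.p))).toAddMonoidHom)
    (fun σ y => ihbcRhoJ_galois (K * 𝔓.p) S h σ y)
    (fun n hn y hy => hkill n hn y hy) (mltjR 𝔓 K hK h49 s)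
    (U₀ ⊓ 𝔓.P.inertiaSubgroupIn ℚ) (W * e) (mul_ne_zero hW0 he) x (fun g hg => hfix g hg.1)
    (fun w hw => ?_)
  obtain ⟨D, rfl, hD⟩ := hE w (fun σ hσ hσI => hw σ ⟨hσ, hσI⟩)
  rw [mltjR_mk, ← QuotientAddGroup.mk_nsmul, QuotientAddGroup.eq_zero_iff]
  refine ⟨0, fun P => ?_⟩
  obtain ⟨n, hn⟩ := hD P.1 P.2
  obtain ⟨W', hW'⟩ : s.w P.1 ∣ W := Finset.dvd_prod_of_mem (fun P : ↥(mltjSS 𝔓 K hK h49) => s.w P.1)
    (Finset.mem_univ P)
  refine ⟨W' * n, ?_⟩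
  rw [Pi.smul_apply, mltjSlS_apply, nsmul_eq_mul, zero_add]
  have h1 : ((W * e : ℕ) : ℚ) * s.sl (D : Divisor Qb _) P.1
      = (W : ℚ) * ((e : ℚ) * s.sl (D : Divisor Qb _) P.1) := by
    push_cast
    ring
  rw [h1, hn, hW']
  push_cast
  ring

end Modular

/-! ### (JL-K) -/

/-- **(S6)**: the slope map and (BR-SS) give the component killer -/
theorem mltj_JLK_of_slope (hs : MltjSlopeEx) (hBS : MltjBrSS) : MltjJLK := by
  classical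
  intro 𝔓 K _ hK h49 S hS h hkill v P hP P' hP'
  obtain ⟨s⟩ := hs 𝔓 K hK h49
  have hBS' := hBS 𝔓 K hK h49
  haveI : Fintype ↥(mltjSS 𝔓 K hK h49) := (mltjSS_finite 𝔓 K hK h49).fintype
  set M := FreeAlgebra.lift ℤ (mltjMat 𝔓 K hK h49 S hS) h with hM
  -- it suffices to show that all rows of `M` are equal
  suffices hrows : ∀ Q : ↥(mltjSS 𝔓 K hK h49), M ⟨P, hP⟩ Q = M ⟨P', hP'⟩ Q by
    have h1 := mltjFunRho_mat 𝔓 K hK h49 S hS hBS' h v ⟨P, hP⟩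
    have h2 := mltjFunRho_mat 𝔓 K hK h49 S hS hBS' h v ⟨P', hP'⟩
    rw [h1, h2]
    exact Finset.sum_congr rfl fun Q _ => by rw [← hM, hrows Q]
  intro Q
  -- divisibility by arbitrarily large `m`
  set d : ℤ := M ⟨P, hP⟩ Q - M ⟨P', hP'⟩ Q with hd
  obtain ⟨m, a, hmN, hcop, D, hDQ, hoff⟩ := s.surj Q.1 Q.2 d.natAbs
  have hm0 : (m : ℚ) ≠ 0 := by
    have : m ≠ 0 := by omega
    exact_mod_cast this
  -- the class of `D` is killed
  have hk := mltjR_kill 𝔓 K hK h49 s S h hkill (Pic0.mk D)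
  obtain ⟨hD', hD''⟩ := mltjRhoJ_mk 𝔓 K S h D
  rw [hD'', mltjR_mk, QuotientAddGroup.eq_zero_iff] at hk
  obtain ⟨k, hk'⟩ := mltjLat_sub _ hk ⟨P, hP⟩ ⟨P', hP'⟩
  have hcalc : ∀ R : ↥(mltjSS 𝔓 K hK h49),
      mltjSlS 𝔓 K hK h49 s ((⟨mltjRhoDiv 𝔓 K S h (D : Divisor Qb _), hD'⟩ :
          Divisor.degZero (K := Qb) (F := ↥(modularFunctionFieldBar (K * 𝔓.p)))) : Divisor Qb _) R
        = (M R Q : ℚ) * ((a : ℚ) / m) := by
    intro R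
    rw [mltjSlS_rho 𝔓 K hK h49 s S hS hBS' h (D : Divisor Qb _) R, Finset.sum_eq_single Q]
    · rw [mltjSlS_apply, hDQ]
    · intro Q' _ hQ'
      rw [mltjSlS_apply, hoff Q'.1 Q'.2 (fun h => hQ' (Subtype.ext h)), mul_zero]
    · intro hQ0
      exact absurd (Finset.mem_univ _) hQ0
  rw [hcalc, hcalc] at hk'
  have hdk : (d : ℚ) * a = (m : ℚ) * k := by
    rw [hd]
    push_cast
    field_simp at hk'
    linarith
  have hdvd' : (m : ℤ) ∣ d * a := ⟨k, by exact_mod_cast hdk⟩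
  have hdvd : (m : ℤ) ∣ d := (IsCoprime.symm hcop).dvd_of_dvd_mul_right hdvd'
  have hd0 : d = 0 := by
    by_contra hne
    have h1 := Int.le_of_dvd (by exact_mod_cast Int.natAbs_pos.mpr hne) ((Int.dvd_natAbs).mpr hdvd)
    omega
  exact sub_eq_zero.mp hd0

end

end Fermat.Agent.MLT
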