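/-
MLT / [L2] (helper9), package (JL-K), two levels: **the component killer of the level `K₀ q` on the functions of
the level `K₀ e` which come from the level `K₀`**

    `MltjSlopeTwoEx → MltjBrSS → MltjJLKTwo`.

`t : MltjSlopeTwo 𝔓 K₀ e hK h49`, `s = t.s` the slope map of the rigid level `K = K₀ e`, `R : J₀(K q) → B` the
slope map on classes (`Kill/JLK.lean`).  `R₀ := R ∘ π^* : J₀(K₀ q) → B`.  A polynomial `h` in the `T_ℓ` killing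
the torsion of `J₀(K₀ q)` satisfies `R₀ ∘ h = 0` (abstract killer at the level `K₀ q`; `π^*` commutes with the
Galois action), and `R₀ ∘ h = h^{Br} ∘ R₀` (`π^*` commutes with the `T_ℓ`, (S3) at the level `K q`).  By
`surjTwo`, for `m` larger than the sum of the absolute values of the differences of the rows `P`, `P'` of
`M = h^{Br}`, every class `C` of a partition `c` finer than `mltjSame` has `a/m · 𝟙_C = sl(π^* D)`: the sum over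
`C` of the differences of the rows is divisible by `m`, hence `0`.  A function which is constant on the classes
of `mltjSame` is constant on the classes of `c`.
-/
import Fermat.Agent.Lib.MLT.L2.Kill.JLK
import Fermat.Agent.Lib.MLT.Contracts.L2JLTwo

set_option autoImplicit false
set_option linter.unusedSectionVars false
set_option linter.unusedVariables false
set_option linter.style.haveILetI false
set_option synthInstance.maxHeartbeats 400000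

namespace Fermat.Agent.MLT

open ModularCurve HahnSeries Fermat.Agent.T1 Fermat.Agent.T2 Fermat.Agent.TW
  Fermat.Agent.Delta Fermat.Agent.T3 Fermat.Agent.Alpha AlgebraicCurve Fermat.Agent.Curve
  Fermat.Agent.Ihara Fermat.Agent.Mazur Fermat.Agent.S33 Fermat.Agent.S33Q

local notation "Qb" => AlgebraicClosure ℚ
local notation "GQ" => (AlgebraicClosure ℚ ≃ₐ[ℚ] AlgebraicClosure ℚ)

noncomputable section

attribute [local instance 5000] dlhAlgK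

section Modular

variable (𝔓 : FFPlace) (K₀ e : ℕ) [NeZero K₀] [NeZero e] (hK : ¬ 𝔓.p ∣ K₀ * e)
  (h49 : 4 ∣ K₀ * e ∨ 9 ∣ K₀ * e)
  [Fintype ↥(mltjSS 𝔓 (K₀ * e) hK h49)] [DecidableEq ↥(mltjSS 𝔓 (K₀ * e) hK h49)]
  (s : MltjSlope 𝔓 (K₀ * e) hK h49)
  (S : Set Nat.Primes) (hS : ∀ ℓ ∈ S, ¬ ((ℓ : Nat.Primes) : ℕ) ∣ K₀ * e * 𝔓.p)

/-- the level `K₀ q` divides the level `K₀ e q` -/
theorem mltj_two_dvd : K₀ * 𝔓.p ∣ K₀ * e * 𝔓.p := ⟨e, by ring⟩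

include hS in
/-- **the killer of the level `K₀ q` kills the slope classes of the pulled-back classes** -/
theorem mltjR_kill_two (h : FreeAlgebra ℤ ↥S)
    (hkill : ∀ n : ℕ, n ≠ 0 → ∀ y : JZero (K₀ * 𝔓.p), n • y = 0 → ihbcRhoJ (K₀ * 𝔓.p) S h y = 0)
    (x : JZero (K₀ * 𝔓.p)) :
    mltjR 𝔓 (K₀ * e) hK h49 s
      (ihbcRhoJ (K₀ * e * 𝔓.p) S h (dlwPullDvd (mltj_two_dvd 𝔓 K₀ e) x)) = 0 := by
  rw [ihbcRhoJ_pull (mltj_two_dvd 𝔓 K₀ e) S hS h x]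
  obtain ⟨U₀, hU₀, hfix⟩ := ihbc_stab_finiteIndex (K₀ * 𝔓.p) x
  obtain ⟨e', he', hE⟩ := s.fixed U₀ hU₀
  set W : ℕ := ∏ P : ↥(mltjSS 𝔓 (K₀ * e) hK h49), s.w P.1 with hW
  have hW0 : W ≠ 0 := Finset.prod_ne_zero_iff.mpr fun P _ => (s.w_pos P.1 P.2).ne'
  refine mltj_kill_of_exponent (G := GQ) (J := JZero (K₀ * 𝔓.p))
    (fun m hm y => mzk_divisible (K₀ * 𝔓.p) hm y)
    ((ihbcRhoJ (K₀ * 𝔓.p) S h : Module.End ℤ (JZero (K₀ * 𝔓.p))).toAddMonoidHom)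
    (fun σ y => ihbcRhoJ_galois (K₀ * 𝔓.p) S h σ y)
    (fun n hn y hy => hkill n hn y hy)
    ((mltjR 𝔓 (K₀ * e) hK h49 s).comp (dlwPullDvd (mltj_two_dvd 𝔓 K₀ e)))
    (U₀ ⊓ 𝔓.P.inertiaSubgroupIn ℚ) (W * e') (mul_ne_zero hW0 he') x (fun g hg => hfix g hg.1)
    (fun w hw => ?_)
  obtain ⟨D, hD1, hD⟩ := hE (dlwPullDvd (mltj_two_dvd 𝔓 K₀ e) w) (fun σ hσ hσI => by
    rw [← dlwPullDvd_galois, hw σ ⟨hσ, hσI⟩])
  rw [AddMonoidHom.comp_apply, ← hD1, mltjR_mk, ← QuotientAddGroup.mk_nsmul,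
    QuotientAddGroup.eq_zero_iff]
  refine ⟨0, fun P => ?_⟩
  obtain ⟨n, hn⟩ := hD P.1 P.2
  obtain ⟨W', hW'⟩ : s.w P.1 ∣ W :=
    Finset.dvd_prod_of_mem (fun P : ↥(mltjSS 𝔓 (K₀ * e) hK h49) => s.w P.1) (Finset.mem_univ P)
  refine ⟨W' * n, ?_⟩
  rw [Pi.smul_apply, mltjSlS_apply, nsmul_eq_mul, zero_add]
  have h1 : ((W * e' : ℕ) : ℚ) * s.sl (D : Divisor Qb _) P.1
      = (W : ℚ) * ((e' : ℚ) * s.sl (D : Divisor Qb _) P.1) := by
    push_cast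
    ring
  rw [h1, hn, hW']
  push_cast
  ring

end Modular

/-! ### (JL-K), two levels -/

/-- **(S6), two levels**: the two-level slope map and (BR-SS) give the two-level component killer -/
theorem mltj_JLKTwo_of_slope (hs : MltjSlopeTwoEx) (hBS : MltjBrSS) : MltjJLKTwo := by
  classical
  intro 𝔓 K₀ _ h𝔓 hK h49 S hS h hkill v hv P hP P' hP'
  obtain ⟨t⟩ := hs 𝔓 K₀ h𝔓 hK h49
  have hBS' := hBS 𝔓 (K₀ * 9) hK h49
  haveI : Fintype ↥(mltjSS 𝔓 (K₀ * 9) hK h49) := (mltjSS_finite 𝔓 (K₀ * 9) hK h49).fintype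
  set M := FreeAlgebra.lift ℤ (mltjMat 𝔓 (K₀ * 9) hK h49 S hS) h with hM
  have h1 := mltjFunRho_mat 𝔓 (K₀ * 9) hK h49 S hS hBS' h v ⟨P, hP⟩
  have h2 := mltjFunRho_mat 𝔓 (K₀ * 9) hK h49 S hS hBS' h v ⟨P', hP'⟩
  rw [h1, h2, ← hM]
  -- the differences of the two rows
  set f : ↥(mltjSS 𝔓 (K₀ * 9) hK h49) → ℤ := fun Q => M ⟨P, hP⟩ Q - M ⟨P', hP'⟩ Q with hf
  set B : ℕ := ∑ Q, (f Q).natAbs with hB
  obtain ⟨m, a, hmN, hcop, c, hc, hD⟩ := t.surjTwo B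
  have hm0 : (m : ℚ) ≠ 0 := by
    have : m ≠ 0 := by omega
    exact_mod_cast this
  -- the sums over the classes vanish
  have hcls : ∀ Q₀ : ↥(mltjSS 𝔓 (K₀ * 9) hK h49),
      ∑ Q ∈ Finset.univ.filter (fun Q : ↥(mltjSS 𝔓 (K₀ * 9) hK h49) => c Q.1 = c Q₀.1), f Q = 0 := by
    intro Q₀
    set d : ℤ := ∑ Q ∈ Finset.univ.filter
      (fun Q : ↥(mltjSS 𝔓 (K₀ * 9) hK h49) => c Q.1 = c Q₀.1), f Q with hd
    obtain ⟨D, hDsl⟩ := hD Q₀.1 Q₀.2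
    have hk := mltjR_kill_two 𝔓 K₀ 9 hK h49 t.s S hS h hkill (Pic0.mk D)
    rw [dlwPullDvd_mk] at hk
    obtain ⟨hD', hD''⟩ := mltjRhoJ_mk 𝔓 (K₀ * 9) S h
      ⟨Divisor.pullbackAlong (dlwIncl (mltj_two_dvd 𝔓 K₀ 9))
          (dlwIncl_integral (mltj_two_dvd 𝔓 K₀ 9)) (D : Divisor Qb _),
        Divisor.pullbackAlong_mem_degZero _ _ (dlwIncl_fundamental (mltj_two_dvd 𝔓 K₀ 9)) D.2⟩
    rw [hD'', mltjR_mk, QuotientAddGroup.eq_zero_iff] at hk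
    obtain ⟨k, hk'⟩ := mltjLat_sub _ hk ⟨P, hP⟩ ⟨P', hP'⟩
    have hcalc : ∀ R : ↥(mltjSS 𝔓 (K₀ * 9) hK h49),
        mltjSlS 𝔓 (K₀ * 9) hK h49 t.s (mltjRhoDiv 𝔓 (K₀ * 9) S h
          (Divisor.pullbackAlong (dlwIncl (mltj_two_dvd 𝔓 K₀ 9))
            (dlwIncl_integral (mltj_two_dvd 𝔓 K₀ 9)) (D : Divisor Qb _))) R
          = (∑ Q ∈ Finset.univ.filter
              (fun Q : ↥(mltjSS 𝔓 (K₀ * 9) hK h49) => c Q.1 = c Q₀.1), (M R Q : ℚ))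
            * ((a : ℚ) / m) := by
      intro R
      rw [mltjSlS_rho 𝔓 (K₀ * 9) hK h49 t.s S hS hBS' h _ R, Finset.sum_mul, Finset.sum_filter]
      refine Finset.sum_congr rfl fun Q _ => ?_
      by_cases hQ : c Q.1 = c Q₀.1
      · rw [if_pos hQ, mltjSlS_apply, (hDsl Q.1 Q.2).1 hQ]
      · rw [if_neg hQ, mltjSlS_apply, (hDsl Q.1 Q.2).2 hQ, mul_zero]
    have hk'' := hk'
    simp only [] at hk''
    rw [hcalc ⟨P, hP⟩, hcalc ⟨P', hP'⟩, ← sub_mul, ← Finset.sum_sub_distrib] at hk''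
    have hdq : (d : ℚ) = ∑ Q ∈ Finset.univ.filter
        (fun Q : ↥(mltjSS 𝔓 (K₀ * 9) hK h49) => c Q.1 = c Q₀.1),
          ((M ⟨P, hP⟩ Q : ℚ) - (M ⟨P', hP'⟩ Q : ℚ)) := by
      rw [hd, Int.cast_sum]
      refine Finset.sum_congr rfl fun Q _ => ?_
      rw [hf]
      push_cast
      rfl
    rw [← hdq] at hk''
    have hdk : (d : ℚ) * a = (m : ℚ) * k := by
      field_simp at hk''
      linarith
    have hdvd' : (m : ℤ) ∣ d * a := ⟨k, by exact_mod_cast hdk⟩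
    have hdvd : (m : ℤ) ∣ d := (IsCoprime.symm hcop).dvd_of_dvd_mul_right hdvd'
    by_contra hne
    have h3 : (m : ℤ) ≤ d.natAbs :=
      Int.le_of_dvd (by exact_mod_cast Int.natAbs_pos.mpr hne) ((Int.dvd_natAbs).mpr hdvd)
    have h4 : d.natAbs ≤ B := by
      rw [hd, hB]
      refine (Int.natAbs_sum_le _ _).trans ?_
      exact Finset.sum_le_sum_of_subset (Finset.filter_subset _ _)
    omega
  -- conclusion
  rw [← sub_eq_zero, ← Finset.sum_sub_distrib]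
  have hterm : ∀ Q : ↥(mltjSS 𝔓 (K₀ * 9) hK h49),
      (M ⟨P, hP⟩ Q : ℤ) * v Q.1 - M ⟨P', hP'⟩ Q * v Q.1 = f Q * v Q.1 := by
    intro Q
    rw [hf]
    ring
  rw [Finset.sum_congr rfl fun Q _ => hterm Q]
  rw [← Finset.sum_fiberwise_of_maps_to (s := Finset.univ)
    (t := Finset.univ.image (fun Q : ↥(mltjSS 𝔓 (K₀ * 9) hK h49) => c Q.1))
    (g := fun Q : ↥(mltjSS 𝔓 (K₀ * 9) hK h49) => c Q.1)
    (fun Q _ => Finset.mem_image_of_mem _ (Finset.mem_univ Q))]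
  refine Finset.sum_eq_zero fun j hj => ?_
  obtain ⟨Q₀, -, rfl⟩ := Finset.mem_image.mp hj
  have h5 : ∀ Q ∈ Finset.univ.filter
      (fun Q : ↥(mltjSS 𝔓 (K₀ * 9) hK h49) => c Q.1 = c Q₀.1), f Q * v Q.1 = f Q * v Q₀.1 := by
    intro Q hQ
    rw [hv Q.1 Q.2 Q₀.1 Q₀.2 (hc Q.1 Q.2 Q₀.1 Q₀.2 (Finset.mem_filter.mp hQ).2)]
  rw [Finset.sum_congr rfl h5, ← Finset.sum_mul, hcls Q₀, zero_mul]

end

end Fermat.Agent.MLT
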